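import Mathlib
import Fermat.Agent.S28.GcdMatrix

/-!
# All cusp kernels coincide (abstract form of the modular-unit argument for S28)

Pure commutative algebra, no modular forms.  `A` is a commutative ring (think: the integral closure
of `𝒪[j]` in the big function field), `L` a domain over a field `κ` (think: `κ((t))`), `J : L`
transcendental over `κ` (think: `j(t^N)`), and `ρ i : A →+* L` finitely many ring homs (the reduced
cusp expansions).  If the characteristic polynomial `∏ i, (X - ρ i x)` of every `x : A` has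
coefficients in `κ[J]`, and there are units `u d` of `A` whose "orders" along `ρ i` are
`(N / d) * gcd (cI i) d ^ 2 - N`, then all the kernels `ker (ρ i)` coincide.
-/

set_option autoImplicit false

namespace Fermat.Agent.S28_helper4

open Polynomial Finset

section IntegrallyClosed

/-- An element `y` of a domain `L ⊇ S`, with `a * y = b` for `a b ∈ S`, `a ≠ 0`, which is integral
over the integrally closed domain `S`, lies in `S`. -/
theorem exists_algebraMap_eq_of_isIntegral_of_mul_eq {S L : Type*} [CommRing S] [IsDomain S]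
    [IsIntegrallyClosed S] [CommRing L] [IsDomain L] [Algebra S L]
    (hinj : Function.Injective (algebraMap S L)) {y : L} {a b : S} (ha : a ≠ 0)
    (hab : algebraMap S L a * y = algebraMap S L b) (hy : IsIntegral S y) :
    ∃ c : S, algebraMap S L c = y := by
  classical
  let K := FractionRing S
  let K' := FractionRing L
  have hinj' : Function.Injective (IsScalarTower.toAlgHom S L K') := by
    intro x x' h
    exact IsFractionRing.injective L K' h
  let g : L →ₐ[S] K' := IsScalarTower.toAlgHom S L K'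
  let f0 : S →ₐ[S] K' := g.comp (Algebra.ofId S L)
  have hf0 : Function.Injective f0 := by
    intro x x' h
    exact hinj (hinj' h)
  let F : K →ₐ[S] K' := IsFractionRing.liftAlgHom (K := K) hf0
  have hFalg : ∀ s : S, F (algebraMap S K s) = algebraMap L K' (algebraMap S L s) := by
    intro s
    have : F (algebraMap S K s) = f0 s := by
      rw [IsFractionRing.liftAlgHom_apply, IsFractionRing.lift_algebraMap]
      rfl
    rw [this]; rfl
  have ha' : algebraMap S K a ≠ 0 := by
    intro h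
    exact ha ((IsFractionRing.injective S K) (by rw [h, map_zero]))
  set z : K := algebraMap S K b / algebraMap S K a with hz
  have hFz : F z = algebraMap L K' y := by
    have h1 : F z * F (algebraMap S K a) = F (algebraMap S K b) := by
      rw [← map_mul, hz, div_mul_cancel₀ _ ha']
    rw [hFalg, hFalg, ← hab, map_mul] at h1
    have h2 : algebraMap L K' (algebraMap S L a) ≠ 0 := by
      intro h
      have := IsFractionRing.injective L K' (by rw [h, map_zero] : algebraMap L K' (algebraMap S L a) = algebraMap L K' 0)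
      exact ha (hinj (by rw [this, map_zero]))
    have h3 : F z * algebraMap L K' (algebraMap S L a)
        = algebraMap L K' y * algebraMap L K' (algebraMap S L a) := by
      rw [h1]; ring
    exact mul_right_cancel₀ h2 h3
  have hzint : IsIntegral S z := by
    rw [← isIntegral_algHom_iff F F.toRingHom.injective, hFz]
    exact hy.map g
  obtain ⟨c, hc⟩ := IsIntegrallyClosed.isIntegral_iff.mp hzint
  refine ⟨c, ?_⟩
  apply IsFractionRing.injective L K'
  rw [← hFz, ← hc, hFalg]

end IntegrallyClosed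

/-- The abstract cusp-kernel datum. -/
structure CuspKer (A κ L P : Type*) [CommRing A] [Field κ] [CommRing L] [IsDomain L]
    [Algebra κ L] [Fintype P] where
  /-- the (reduced) hauptmodul `j(t^N)` -/
  J : L
  hJ : Function.Injective (aeval J : κ[X] →ₐ[κ] L)
  /-- the reduced cusp expansions -/
  ρ : P → A →+* L
  hsym : ∀ x : A, ∀ m : ℕ,
    (∏ i, (X - C (ρ i x))).coeff m ∈ Set.range (aeval J : κ[X] →ₐ[κ] L)
  /-- the order function of `L` -/
  ordL : L → ℤ
  ordL_mul : ∀ x y : L, x ≠ 0 → y ≠ 0 → ordL (x * y) = ordL x + ordL y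
  ordL_const : ∀ c : κ, c ≠ 0 → ordL (algebraMap κ L c) = 0

namespace CuspKer

variable {A κ L P : Type*} [CommRing A] [Field κ] [CommRing L] [IsDomain L]
  [Algebra κ L] [Fintype P] (D : CuspKer A κ L P)

/-- the ring hom `κ[X] → L`, `X ↦ J` -/
noncomputable def φ : κ[X] →+* L := (aeval D.J : κ[X] →ₐ[κ] L).toRingHom

lemma φ_injective : Function.Injective D.φ := D.hJ

lemma φ_apply (p : κ[X]) : D.φ p = aeval D.J p := rfl

lemma φ_C (c : κ) : D.φ (C c) = algebraMap κ L c := by
  rw [φ_apply, aeval_C]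

lemma ordL_one : D.ordL 1 = 0 := by
  have := D.ordL_const 1 one_ne_zero
  rwa [map_one] at this

lemma ordL_prod {ι : Type*} (s : Finset ι) (f : ι → L) (hf : ∀ i ∈ s, f i ≠ 0) :
    D.ordL (∏ i ∈ s, f i) = ∑ i ∈ s, D.ordL (f i) := by
  classical
  induction s using Finset.induction_on with
  | empty => simp [D.ordL_one]
  | insert a s ha ih =>
    rw [Finset.prod_insert ha, Finset.sum_insert ha, D.ordL_mul, ih]
    · intro i hi; exact hf i (Finset.mem_insert_of_mem hi)
    · exact hf a (Finset.mem_insert_self a s)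
    · exact Finset.prod_ne_zero_iff.mpr fun i hi => hf i (Finset.mem_insert_of_mem hi)

/-- the image of a unit is nonzero -/
lemma ρ_unit_ne_zero (i : P) (u : Aˣ) : D.ρ i (u : A) ≠ 0 := by
  intro h
  have h1 : D.ρ i ((u : A) * ((u⁻¹ : Aˣ) : A)) = 1 := by
    rw [Units.mul_inv, map_one]
  rw [map_mul, h, zero_mul] at h1
  exact zero_ne_one h1

/-- every value `ρ i x` is integral over `κ[X]` acting through `φ`. -/
lemma isIntegralElem_ρ (i : P) (x : A) : D.φ.IsIntegralElem (D.ρ i x) := by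
  classical
  set q : L[X] := ∏ i, (X - C (D.ρ i x)) with hq
  have hqm : q.Monic := monic_prod_of_monic _ _ fun i _ => monic_X_sub_C _
  have hlift : q ∈ lifts D.φ := by
    rw [lifts_iff_coeff_lifts]
    intro m
    exact D.hsym x m
  obtain ⟨q', hq', -, hq'm⟩ := lifts_and_natDegree_eq_and_monic hlift hqm
  refine ⟨q', hq'm, ?_⟩
  rw [eval₂_eq_eval_map, hq', hq, eval_prod]
  exact Finset.prod_eq_zero (Finset.mem_univ i) (by simp)

/-- If `e` vanishes under `ρ i` for `i ∉ S`, the `S`-norm of `e * x` lies in `κ[J]`. -/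
lemma prod_isolated_mem [DecidableEq P] (S : Finset P) (e x : A) (he0 : ∀ i ∉ S, D.ρ i e = 0) :
    ∏ i ∈ S, D.ρ i (e * x) ∈ Set.range D.φ := by
  have hsplit : (∏ i, (X - C (D.ρ i (e * x))) : L[X])
      = (∏ i ∈ S, (X - C (D.ρ i (e * x)))) * X ^ (Sᶜ).card := by
    rw [← Finset.prod_mul_prod_compl S]
    congr 1
    rw [Finset.prod_congr rfl (g := fun _ => (X : L[X])), Finset.prod_const]
    intro i hi
    rw [Finset.mem_compl] at hi
    rw [map_mul, he0 i hi, zero_mul, C_0, sub_zero]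
  have h1 := D.hsym (e * x) (0 + (Sᶜ).card)
  rw [hsplit, coeff_mul_X_pow, coeff_zero_eq_eval_zero, eval_prod] at h1
  simp only [eval_sub, eval_X, eval_C, zero_sub] at h1
  rw [Finset.prod_neg] at h1
  obtain ⟨r, hr⟩ := h1
  refine ⟨C ((-1 : κ) ^ S.card) * r, ?_⟩
  rw [map_mul, φ_C, map_pow, map_neg, map_one]
  rw [show D.φ r = (aeval D.J) r from rfl, hr, ← mul_assoc, ← mul_pow]
  simp

/-- The `S`-norm of a unit is a nonzero constant, when `S` is isolated by `e`. -/
lemma exists_const_eq_prod_unit [DecidableEq P] (S : Finset P) (e : A)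
    (he0 : ∀ i ∉ S, D.ρ i e = 0) (he1 : ∀ i ∈ S, D.ρ i e ≠ 0) (u : Aˣ) :
    ∃ c : κ, c ≠ 0 ∧ ∏ i ∈ S, D.ρ i (u : A) = algebraMap κ L c := by
  classical
  let _ : Algebra κ[X] L := D.φ.toAlgebra
  have hinj : Function.Injective (algebraMap κ[X] L) := D.φ_injective
  -- the norm of `e`
  obtain ⟨a, ha⟩ := D.prod_isolated_mem S e 1 he0
  have ha0 : a ≠ 0 := by
    intro h
    rw [h, map_zero, mul_one] at ha
    exact (Finset.prod_ne_zero_iff.mpr he1) ha.symm
  have key : ∀ v : Aˣ, ∃ c : κ[X], D.φ c = ∏ i ∈ S, D.ρ i (v : A) := by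
    intro v
    obtain ⟨b, hb⟩ := D.prod_isolated_mem S e (v : A) he0
    have hab : algebraMap κ[X] L a * (∏ i ∈ S, D.ρ i (v : A)) = algebraMap κ[X] L b := by
      show D.φ a * _ = D.φ b
      rw [ha, hb, mul_one, ← Finset.prod_mul_distrib]
      exact Finset.prod_congr rfl fun i _ => (map_mul _ _ _).symm
    have hint : IsIntegral κ[X] (∏ i ∈ S, D.ρ i (v : A)) :=
      IsIntegral.prod _ fun i _ => D.isIntegralElem_ρ i (v : A)
    exact exists_algebraMap_eq_of_isIntegral_of_mul_eq hinj ha0 hab hint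
  obtain ⟨c1, hc1⟩ := key u
  obtain ⟨c2, hc2⟩ := key u⁻¹
  have h12 : c1 * c2 = 1 := by
    apply D.φ_injective
    rw [map_mul, hc1, hc2, map_one, ← Finset.prod_mul_distrib]
    refine Finset.prod_eq_one fun i _ => ?_
    rw [← map_mul, Units.mul_inv, map_one]
  have hunit : IsUnit c1 := IsUnit.of_mul_eq_one c2 h12
  obtain ⟨r, hr, hrc⟩ := Polynomial.isUnit_iff.mp hunit
  refine ⟨r, hr.ne_zero, ?_⟩
  rw [← hc1, ← hrc, φ_C]

/-- The orders of a unit along the cusps in an isolated set add up to zero. -/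
lemma sum_ordL_unit_eq_zero [DecidableEq P] (S : Finset P) (e : A)
    (he0 : ∀ i ∉ S, D.ρ i e = 0) (he1 : ∀ i ∈ S, D.ρ i e ≠ 0) (u : Aˣ) :
    ∑ i ∈ S, D.ordL (D.ρ i (u : A)) = 0 := by
  obtain ⟨c, hc0, hc⟩ := D.exists_const_eq_prod_unit S e he0 he1 u
  rw [← D.ordL_prod S _ fun i _ => D.ρ_unit_ne_zero i u, hc, D.ordL_const c hc0]

/-- There is a nonempty set `S` of cusps with a common kernel which is isolated by some `e`. -/
lemma exists_isolated [Nonempty P] :
    ∃ (S : Finset P) (e : A) (i₁ : P), i₁ ∈ S ∧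
      (∀ i ∈ S, RingHom.ker (D.ρ i) = RingHom.ker (D.ρ i₁)) ∧
      (∀ i ∉ S, D.ρ i e = 0) ∧ (∀ i ∈ S, D.ρ i e ≠ 0) := by
  classical
  have hne : (Finset.univ.image fun i => RingHom.ker (D.ρ i)).Nonempty :=
    Finset.image_nonempty.mpr Finset.univ_nonempty
  obtain ⟨p, hp⟩ := Finset.exists_minimal hne
  obtain ⟨i₁, -, hi₁⟩ := Finset.mem_image.mp hp.prop
  set S : Finset P := Finset.univ.filter fun i => RingHom.ker (D.ρ i) = p with hS
  have hnotle : ∀ i ∉ S, ¬ RingHom.ker (D.ρ i) ≤ p := by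
    intro i hi hle
    have hmem : RingHom.ker (D.ρ i) ∈ Finset.univ.image fun i => RingHom.ker (D.ρ i) :=
      Finset.mem_image_of_mem _ (Finset.mem_univ i)
    have := hp.le_of_le hmem hle
    exact hi (by rw [hS, Finset.mem_filter]; exact ⟨Finset.mem_univ i, le_antisymm hle this⟩)
  have hex : ∀ i : P, ∃ f : A, i ∉ S → (D.ρ i f = 0 ∧ f ∉ p) := by
    intro i
    by_cases hi : i ∈ S
    · exact ⟨0, fun h => absurd hi h⟩
    · obtain ⟨f, hf1, hf2⟩ := Set.not_subset.mp (hnotle i hi)
      exact ⟨f, fun _ => ⟨hf1, hf2⟩⟩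
  choose f hf using hex
  refine ⟨S, ∏ i ∈ Sᶜ, f i, i₁, ?_, ?_, ?_, ?_⟩
  · rw [hS, Finset.mem_filter]; exact ⟨Finset.mem_univ _, hi₁⟩
  · intro i hi
    rw [hS, Finset.mem_filter] at hi
    rw [hi.2, hi₁]
  · intro i hi
    rw [map_prod]
    exact Finset.prod_eq_zero (Finset.mem_compl.mpr hi) (hf i hi).1
  · intro i hi
    rw [map_prod]
    refine Finset.prod_ne_zero_iff.mpr fun i' hi' => ?_
    have h1 := (hf i' (Finset.mem_compl.mp hi')).2
    rw [hS, Finset.mem_filter] at hi
    rw [← hi.2] at h1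
    exact h1

/-- The unit data: levels `cI i ∣ N` of the cusps, and units `u d` with the orders of the modular
units `Δ(q^d)/Δ(q)`. -/
structure UnitData (N : ℕ) where
  cI : P → ℕ
  cI_dvd : ∀ i, cI i ∣ N
  i₀ : P
  cI_eq_iff : ∀ i, cI i = N ↔ i = i₀
  u : ℕ → Aˣ
  ord_u : ∀ d ∈ N.divisors, ∀ i,
    D.ordL (D.ρ i (u d : A)) = ((N / d : ℕ) : ℤ) * ((Nat.gcd (cI i) d : ℕ) : ℤ) ^ 2 - (N : ℤ)

variable {D}

/-- The gcd-moment identity for an isolated set of cusps. -/
lemma UnitData.sum_gcd_sq [DecidableEq P] {N : ℕ} (U : D.UnitData N) (hN : N ≠ 0) (S : Finset P)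
    (e : A) (he0 : ∀ i ∉ S, D.ρ i e = 0) (he1 : ∀ i ∈ S, D.ρ i e ≠ 0) (d : ℕ)
    (hd : d ∈ N.divisors) :
    ∑ i ∈ S, (Nat.gcd (U.cI i) d) ^ 2 = d * S.card := by
  have h0 := D.sum_ordL_unit_eq_zero S e he0 he1 (U.u d)
  rw [Finset.sum_congr rfl fun i _ => U.ord_u d hd i, Finset.sum_sub_distrib,
    ← Finset.mul_sum, Finset.sum_const, nsmul_eq_mul] at h0
  have hdN : d ∣ N := Nat.dvd_of_mem_divisors hd
  have hq : N / d ≠ 0 := by
    intro h
    exact hN (by rw [← Nat.div_mul_cancel hdN, h, zero_mul])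
  have hN' : (N : ℤ) = ((N / d : ℕ) : ℤ) * (d : ℤ) := by
    rw [← Nat.cast_mul, Nat.div_mul_cancel hdN]
  have h1 : ((N / d : ℕ) : ℤ) * (∑ i ∈ S, ((Nat.gcd (U.cI i) d : ℕ) : ℤ) ^ 2 - (d : ℤ) * S.card)
      = 0 := by
    rw [mul_sub, ← mul_assoc, ← hN']
    linarith
  have h2 : ∑ i ∈ S, ((Nat.gcd (U.cI i) d : ℕ) : ℤ) ^ 2 - (d : ℤ) * S.card = 0 := by
    rcases mul_eq_zero.mp h1 with h | h
    · exact absurd (by exact_mod_cast h) hq
    · exact h
  have h3 : ((∑ i ∈ S, (Nat.gcd (U.cI i) d) ^ 2 : ℕ) : ℤ) = ((d * S.card : ℕ) : ℤ) := by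
    push_cast
    linarith
  exact_mod_cast h3

/-- regrouping a sum over cusps according to the level -/
lemma UnitData.sum_fiberwise [DecidableEq P] {N : ℕ} (U : D.UnitData N) (hN : N ≠ 0)
    (S : Finset P) (d : ℕ) :
    ∑ t ∈ N.divisors, (S.filter fun i => U.cI i = t).card * (Nat.gcd t d) ^ 2
      = ∑ i ∈ S, (Nat.gcd (U.cI i) d) ^ 2 := by
  rw [← Finset.sum_fiberwise_of_maps_to (s := S) (t := N.divisors) (g := U.cI)
    (fun i _ => Nat.mem_divisors.mpr ⟨U.cI_dvd i, hN⟩)]
  refine Finset.sum_congr rfl fun t _ => ?_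
  rw [Finset.sum_congr rfl (g := fun _ => (Nat.gcd t d) ^ 2), Finset.sum_const, smul_eq_mul]
  intro i hi
  rw [(Finset.mem_filter.mp hi).2]

/-- **All cusp kernels coincide.** -/
theorem UnitData.ker_eq [DecidableEq P] {N : ℕ} (U : D.UnitData N) (hN : N ≠ 0) (i i' : P) :
    RingHom.ker (D.ρ i) = RingHom.ker (D.ρ i') := by
  classical
  have : Nonempty P := ⟨U.i₀⟩
  obtain ⟨S, e, i₁, hi₁, hker, he0, he1⟩ := D.exists_isolated
  -- moments of `S`
  have hx : ∀ d ∈ N.divisors, ∑ t ∈ N.divisors,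
      (S.filter fun i => U.cI i = t).card * (Nat.gcd t d) ^ 2 = d * S.card := by
    intro d hd
    rw [U.sum_fiberwise hN S d, U.sum_gcd_sq hN S e he0 he1 d hd]
  -- moments of the full set, isolated by `1`
  have hy : ∀ d ∈ N.divisors, ∑ t ∈ N.divisors,
      ((Finset.univ : Finset P).filter fun i => U.cI i = t).card * (Nat.gcd t d) ^ 2
        = d * (Finset.univ : Finset P).card := by
    intro d hd
    rw [U.sum_fiberwise hN Finset.univ d, U.sum_gcd_sq hN Finset.univ 1
      (fun i hi => absurd (Finset.mem_univ i) hi)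
      (fun i _ => by rw [map_one]; exact one_ne_zero) d hd]
  have hyN : ((Finset.univ : Finset P).filter fun i => U.cI i = N).card = 1 := by
    rw [Finset.card_eq_one]
    refine ⟨U.i₀, ?_⟩
    ext i
    rw [Finset.mem_filter, Finset.mem_singleton, U.cI_eq_iff]
    exact ⟨fun h => h.2, fun h => ⟨Finset.mem_univ i, h⟩⟩
  have hcard : S.card = (Finset.univ : Finset P).card :=
    Fermat.Agent.S28.GcdMatrix.count_eq_of_gcd_moments hN
      (fun t => (S.filter fun i => U.cI i = t).card)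
      (fun t => ((Finset.univ : Finset P).filter fun i => U.cI i = t).card)
      S.card (Finset.univ : Finset P).card hx hy hyN
      (Finset.card_ne_zero.mpr ⟨i₁, hi₁⟩) (Finset.card_le_univ S)
  have hS : S = Finset.univ := Finset.eq_univ_of_card S (by rw [hcard, Finset.card_univ])
  rw [hker i (hS ▸ Finset.mem_univ i), hker i' (hS ▸ Finset.mem_univ i')]

end CuspKer

/-- **All cusp kernels coincide**, unbundled form.  `A` a commutative ring, `L` a domain over the
field `κ`, `J : L` transcendental, `ρ i : A →+* L` a finite family of ring homs such that all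
coefficients of `∏ i, (X - ρ i x)` lie in `κ[J]`; `ordL` an order function on `L`; `cI`, `u` the
cusp levels and the (modular) units with `ordL (ρ i (u d)) = (N / d) * gcd (cI i) d ^ 2 - N`. -/
theorem ker_eq_of_units {A κ L P : Type*} [CommRing A] [Field κ] [CommRing L] [IsDomain L]
    [Algebra κ L] [Fintype P] [DecidableEq P]
    (J : L) (hJ : Transcendental κ J) (ρ : P → A →+* L)
    (hsym : ∀ x : A, ∀ m : ℕ,
      (∏ i, (X - C (ρ i x))).coeff m ∈ (Algebra.adjoin κ {J} : Subalgebra κ L))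
    (ordL : L → ℤ) (ordL_mul : ∀ x y : L, x ≠ 0 → y ≠ 0 → ordL (x * y) = ordL x + ordL y)
    (ordL_const : ∀ c : κ, c ≠ 0 → ordL (algebraMap κ L c) = 0)
    {N : ℕ} (hN : N ≠ 0) (cI : P → ℕ) (cI_dvd : ∀ i, cI i ∣ N) (i₀ : P)
    (cI_eq_iff : ∀ i, cI i = N ↔ i = i₀) (u : ℕ → Aˣ)
    (ord_u : ∀ d ∈ N.divisors, ∀ i,
      ordL (ρ i (u d : A)) = ((N / d : ℕ) : ℤ) * ((Nat.gcd (cI i) d : ℕ) : ℤ) ^ 2 - (N : ℤ))
    (i i' : P) : RingHom.ker (ρ i) = RingHom.ker (ρ i') := by
  let D : CuspKer A κ L P :=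
    { J := J
      hJ := transcendental_iff_injective.mp hJ
      ρ := ρ
      hsym := fun x m => by
        have h := hsym x m
        rw [Algebra.adjoin_singleton_eq_range_aeval] at h
        exact h
      ordL := ordL
      ordL_mul := ordL_mul
      ordL_const := ordL_const }
  let U : D.UnitData N :=
    { cI := cI, cI_dvd := cI_dvd, i₀ := i₀, cI_eq_iff := cI_eq_iff, u := u, ord_u := ord_u }
  exact U.ker_eq hN i i'

end Fermat.Agent.S28_helper4
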